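import Fermat.Agent.RR7222.Bound
import Fermat.Agent.S24.A564.SumOrd
import Fermat.Prelude.Def_AlgebraicCurve_IsCurveOver

/-!
# Riemann–Roch (Riemann's part) over an algebraically closed field of characteristic zero

Input: a transcendental `x : F` with `F` finite and separable over `K(x)` (separability is
automatic in characteristic zero); the constant field `K` is algebraically closed.
-/

set_option autoImplicit false
set_option linter.deprecated false

namespace Fermat.Agent.RR7222

open AlgebraicCurve WithZero IntermediateField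

universe u

variable {K : Type*} {F : Type u} [Field K] [Field F] [Algebra K F]

theorem linearIndependent_pow_of_transcendental {x : F} (hx : Transcendental K x) :
    LinearIndependent K (fun i : ℕ => x ^ i) := by
  have hinj : Function.Injective (Polynomial.aeval (R := K) x) := transcendental_iff_injective.mp hx
  have h1 : LinearIndependent K (Polynomial.basisMonomials K) :=
    (Polynomial.basisMonomials K).linearIndependent
  have h2 := h1.map' (Polynomial.aeval (R := K) x).toLinearMap (LinearMap.ker_eq_bot.mpr hinj)
  have h3 : (fun i : ℕ => x ^ i) =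
      (Polynomial.aeval (R := K) x).toLinearMap ∘ (Polynomial.basisMonomials K) := by
    ext i
    simp [Polynomial.coe_basisMonomials]
  rw [h3]
  exact h2

theorem linearIndependent_pow_mul_basis {x : F} (hx : Transcendental K x)
    [FiniteDimensional K⟮x⟯ F] :
    LinearIndependent K (fun p : ℕ × Fin (Module.finrank K⟮x⟯ F) =>
      x ^ p.1 * Module.finBasis K⟮x⟯ F p.2) := by
  have hb : LinearIndependent K (fun i : ℕ => (AdjoinSimple.gen K x) ^ i) := by
    apply LinearIndependent.of_comp (K⟮x⟯.val.toLinearMap)
    have h3 : (K⟮x⟯.val.toLinearMap) ∘ (fun i : ℕ => (AdjoinSimple.gen K x) ^ i)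
        = fun i : ℕ => x ^ i := by
      ext i
      simp
    rw [h3]
    exact linearIndependent_pow_of_transcendental hx
  have hc : LinearIndependent K⟮x⟯ (Module.finBasis K⟮x⟯ F) :=
    (Module.finBasis K⟮x⟯ F).linearIndependent
  have := linearIndependent_smul hb hc
  have h3 : (fun p : ℕ × Fin (Module.finrank K⟮x⟯ F) => x ^ p.1 * Module.finBasis K⟮x⟯ F p.2)
      = fun p : ℕ × Fin (Module.finrank K⟮x⟯ F) =>
        (AdjoinSimple.gen K x) ^ p.1 • Module.finBasis K⟮x⟯ F p.2 := by
    ext p
    rw [IntermediateField.smul_def]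
    simp
  rw [h3]
  exact this

theorem adjoin_inv_eq (x : F) : K⟮x⁻¹⟯ = K⟮x⟯ := by
  apply le_antisymm
  · rw [adjoin_simple_le_iff]
    exact inv_mem (mem_adjoin_simple_self K x)
  · rw [adjoin_simple_le_iff]
    have := inv_mem (mem_adjoin_simple_self K x⁻¹)
    rwa [inv_inv] at this


section sumOrd

open IsDedekindDomain Fermat.Agent.S24.A564.SO
open scoped IntermediateField.algebraAdjoinAdjoin

/-- The sum of the zero orders of a transcendental `s` is `[F : K(s)]` (algebraically closed
constant field, `F/K(s)` finite separable).  This is `Fermat.Agent.S24.A564.SO.exists_finset_zeros_sum_ord`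
with the characteristic-zero hypothesis replaced by separability; same proof. -/
theorem exists_finset_zeros_sum_ord_of_isSeparable [IsAlgClosed K] (s : F)
    (hs : Transcendental K s) [FiniteDimensional K⟮s⟯ F] [Algebra.IsSeparable K⟮s⟯ F] :
    ∃ S : Finset (Place K F), (∀ v, v ∈ S ↔ 0 < v.ord s) ∧
      ∑ v ∈ S, v.ord s = (Module.finrank K⟮s⟯ F : ℤ) := by
  classical
  let R := Algebra.adjoin K {s}
  let B := integralClosure R F
  have : IsPrincipalIdealRing R := adjoin_isPrincipalIdealRing s
  have : IsDedekindDomain B := IsIntegralClosure.isDedekindDomain R K⟮s⟯ F B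
  have : IsFractionRing B F := IsIntegralClosure.isFractionRing_of_finite_extension R K⟮s⟯ F B
  have : Module.Finite R B := IsIntegralClosure.finite R K⟮s⟯ F B
  let sR : R := ⟨s, Algebra.self_mem_adjoin_singleton K s⟩
  let p : Ideal R := Ideal.span {sR}
  have hpmax : p.IsMaximal := adjoin_span_isMaximal s hs
  have hs0 : s ≠ 0 := by
    rintro rfl
    exact hs (isAlgebraic_zero)
  have hsR0 : sR ≠ 0 := fun h => hs0 (congrArg Subtype.val h)
  have hp0 : p ≠ ⊥ := by
    rw [Ne, Ideal.span_singleton_eq_bot]
    exact hsR0
  have hsum := Ideal.sum_ramification_inertia B K⟮s⟯ F (p := p) hp0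
  have hmemP : ∀ P ∈ IsDedekindDomain.primesOverFinset p B, P.IsPrime ∧ P.LiesOver p := fun P hP =>
    (IsDedekindDomain.mem_primesOverFinset_iff hp0 _).mp hP
  have hPne : ∀ P ∈ IsDedekindDomain.primesOverFinset p B, P ≠ ⊥ := fun P hP =>
    have := (hmemP P hP).2
    Ideal.ne_bot_of_liesOver_of_ne_bot hp0 P
  let Φ : {P // P ∈ IsDedekindDomain.primesOverFinset p B} → Place K F := fun P =>
    Place.ofHeightOneSpectrum (K := K) ⟨P.1, (hmemP P.1 P.2).1, hPne P.1 P.2⟩
  have hsB : algebraMap R B sR ≠ 0 := by
    intro h
    exact hs0 (congrArg (algebraMap B F) h)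
  have hsF : algebraMap B F (algebraMap R B sR) = s := rfl
  have hord : ∀ P : {P // P ∈ IsDedekindDomain.primesOverFinset p B},
      (Φ P).ord s = (p.ramificationIdx' P.1 : ℤ) := by
    intro P
    show (Place.ofHeightOneSpectrum (K := K) (F := F) _).ord s = _
    rw [Place_ofHeightOneSpectrum_ord]
    exact ramificationIdx'_eq_neg_log_valuation (F := F) sR ⟨P.1, (hmemP P.1 P.2).1, hPne P.1 P.2⟩ hsB
  have hinert : ∀ P ∈ IsDedekindDomain.primesOverFinset p B, p.inertiaDeg' P = 1 := fun P hP => by
    have := (hmemP P hP).1
    have := (hmemP P hP).2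
    exact inertiaDeg'_eq_one_of_isAlgClosed (K := K) p P (adjoin_exists_const_sub_mem s)
  have hΦinj : Function.Injective Φ := by
    intro P P' h
    have := Place_ofHeightOneSpectrum_injective (K := K) (F := F) h
    exact Subtype.ext (congrArg HeightOneSpectrum.asIdeal this)
  refine ⟨(IsDedekindDomain.primesOverFinset p B).attach.image Φ, ?_, ?_⟩
  · intro v
    constructor
    · intro hv
      obtain ⟨P, -, rfl⟩ := Finset.mem_image.mp hv
      rw [hord]
      have hne : p.ramificationIdx' P.1 ≠ 0 := by
        have := (hmemP P.1 P.2).1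
        have := (hmemP P.1 P.2).2
        exact Ideal.IsDedekindDomain.ramificationIdx'_ne_zero_of_liesOver P.1 hp0
      exact_mod_cast Nat.pos_of_ne_zero hne
    · intro hv
      have hsmem : s ∈ v.toValuationSubring := Place_mem_of_ord_nonneg v hv.le
      have hR : R ≤ Place_subalgebra v := Place_adjoin_le v hsmem
      have hB : ∀ b : B, algebraMap B F b ∈ v.toValuationSubring := fun b =>
        Place_mem_of_isIntegral v hR b.2
      obtain ⟨w, rfl⟩ := Place_exists_heightOneSpectrum_of_le v hB
      have hsw : algebraMap R B sR ∈ w.asIdeal := by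
        rw [← HeightOneSpectrum.valuation_lt_one_iff_mem (K := F)]
        show w.valuation F s < 1
        rw [Place_ofHeightOneSpectrum_ord] at hv
        have hne : w.valuation F s ≠ 0 := (Valuation.ne_zero_iff _).mpr hs0
        rw [← exp_log hne, ← exp_zero, exp_lt_exp]
        omega
      have hover : w.asIdeal.LiesOver p := by
        refine ⟨?_⟩
        refine Ideal.IsMaximal.eq_of_le hpmax ?_ ?_
        · exact (Ideal.IsPrime.under R w.asIdeal).ne_top
        · rw [Ideal.span_le, Set.singleton_subset_iff]
          exact hsw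
      have hmem : w.asIdeal ∈ IsDedekindDomain.primesOverFinset p B :=
        (IsDedekindDomain.mem_primesOverFinset_iff hp0 _).mpr ⟨w.isPrime, hover⟩
      exact Finset.mem_image.mpr ⟨⟨w.asIdeal, hmem⟩, Finset.mem_attach _ _, rfl⟩
  · rw [Finset.sum_image (fun x _ y _ h => hΦinj h)]
    have h1 : ∑ P ∈ (IsDedekindDomain.primesOverFinset p B).attach, (Φ P).ord s
        = ∑ P ∈ (IsDedekindDomain.primesOverFinset p B).attach,
            ((p.ramificationIdx' P.1 * p.inertiaDeg' P.1 : ℕ) : ℤ) :=
      Finset.sum_congr rfl fun P _ => by rw [hord, hinert P.1 P.2, mul_one]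
    rw [h1, Finset.sum_attach (IsDedekindDomain.primesOverFinset p B)
      (fun P => ((p.ramificationIdx' P * p.inertiaDeg' P : ℕ) : ℤ)), ← Nat.cast_sum, hsum]

end sumOrd

section

variable [IsAlgClosed K] [HasPrincipalDivisors K F]
  [∀ v : Place K F, v.FiniteResidue]

omit [HasPrincipalDivisors K F] in
theorem degree_eq_sum_of_subset (D : Divisor K F) (S : Finset (Place K F)) (hS : D.support ⊆ S) :
    Divisor.degree D = ∑ v ∈ S, D v := by
  have hdeg : ∀ v : Place K F, v.deg = 1 := fun v =>
    have : Module.Finite K v.ResidueField := Place.FiniteResidue.finite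
    v.deg_eq_one_of_isAlgClosed_of_finite
  have h1 : Divisor.degree D = D.sum fun v n => n * (v.deg : ℤ) := by
    simp [Divisor.degree, Finsupp.liftAddHom_apply]
  rw [h1, Finsupp.sum_of_support_subset D hS _ (fun v _ => by simp)]
  refine Finset.sum_congr rfl fun v _ => ?_
  rw [hdeg v]
  simp

/-- The pole divisor of a transcendental `x` has degree `[F : K(x)]`, and `x` has a pole. -/
theorem degree_poleDiv_eq (x : F) (hx : Transcendental K x) [FiniteDimensional K⟮x⟯ F]
    [Algebra.IsSeparable K⟮x⟯ F] :
    Nonempty (Place K F) ∧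
      Divisor.degree (poleDiv (K := K) x) = (Module.finrank K⟮x⟯ F : ℤ) := by
  have hx' : Transcendental K x⁻¹ := fun h => hx (by simpa using h.inv)
  have hfd : FiniteDimensional K⟮x⁻¹⟯ F := by
    rw [adjoin_inv_eq]
    infer_instance
  have hsep : Algebra.IsSeparable K⟮x⁻¹⟯ F := by
    rw [adjoin_inv_eq]
    infer_instance
  obtain ⟨S, hS, hsum⟩ := exists_finset_zeros_sum_ord_of_isSeparable (K := K) x⁻¹ hx'
  have hrank : Module.finrank K⟮x⁻¹⟯ F = Module.finrank K⟮x⟯ F := by
    rw [adjoin_inv_eq]
  rw [hrank] at hsum
  have hpos : 0 < Module.finrank K⟮x⟯ F := Module.finrank_pos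
  constructor
  · by_contra hempty
    rw [not_nonempty_iff] at hempty
    have : S = ∅ := Finset.eq_empty_of_isEmpty S
    rw [this, Finset.sum_empty] at hsum
    omega
  · rw [← hsum]
    have hsub : (poleDiv (K := K) x).support ⊆ S := by
      intro v hv
      rw [Finsupp.mem_support_iff, poleDiv_apply] at hv
      rw [hS, v.ord_inv]
      by_contra hcon
      apply hv
      rw [max_eq_left]
      omega
    rw [degree_eq_sum_of_subset _ S hsub]
    refine Finset.sum_congr rfl fun v hv => ?_
    have := (hS v).mp hv
    rw [v.ord_inv] at this ⊢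
    rw [poleDiv_apply, max_eq_right]
    omega

/-- Riemann's inequality for a function field over an algebraically closed field of
characteristic zero. -/
theorem riemannBound_of_transcendental (x : F) (hx : Transcendental K x)
    [FiniteDimensional K⟮x⟯ F] [Algebra.IsSeparable K⟮x⟯ F] :
    Nonempty (Place K F) ∧ RiemannBound K F := by
  obtain ⟨hne, hdeg⟩ := degree_poleDiv_eq (K := K) x hx
  refine ⟨hne, ?_⟩
  obtain ⟨c, hc⟩ := chi_nsmul_poleDiv_le (K := K) x (Module.finrank K⟮x⟯ F)
    (Module.finBasis K⟮x⟯ F) (linearIndependent_pow_mul_basis hx) hdeg.le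
  have hpos : 0 < Module.finrank K⟮x⟯ F := Module.finrank_pos
  exact riemannBound_of_nsmul (poleDiv (K := K) x) (by rw [hdeg]; exact_mod_cast hpos) c hc

/-- Over an algebraically closed constant field, `L(0) = K`. -/
theorem riemannRochSpace_zero [Nonempty (Place K F)] :
    riemannRochSpace (0 : Divisor K F) = LinearMap.range (Algebra.linearMap K F) := by
  apply le_antisymm
  · intro f hf
    obtain ⟨v₀⟩ := ‹Nonempty (Place K F)›
    have hmem : ∀ g : F, g ∈ riemannRochSpace (0 : Divisor K F) → g ∈ v₀.toValuationSubring := by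
      intro g hg
      apply mem_of_adicValuation_le_one
      simpa using hg v₀
    have hfin : Module.Finite K v₀.ResidueField := Place.FiniteResidue.finite
    have hint : Algebra.IsIntegral K v₀.ResidueField := Algebra.IsIntegral.of_finite K _
    have hbij : Function.Bijective (algebraMap K v₀.ResidueField) :=
      IsAlgClosed.algebraMap_bijective_of_isIntegral
    obtain ⟨c, hc⟩ := hbij.2 (IsLocalRing.residue v₀.toValuationSubring ⟨f, hmem f hf⟩)
    have hcmem : algebraMap K F c ∈ riemannRochSpace (0 : Divisor K F) := by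
      intro v
      simpa using v.adicValuation_algebraMap_le_one c
    set g : F := f - algebraMap K F c with hg
    have hgmem : g ∈ riemannRochSpace (0 : Divisor K F) := Submodule.sub_mem _ hf hcmem
    have hres : IsLocalRing.residue v₀.toValuationSubring ⟨g, hmem g hgmem⟩ = 0 := by
      have e : (⟨g, hmem g hgmem⟩ : v₀.toValuationSubring)
          = ⟨f, hmem f hf⟩ - algebraMap K v₀.toValuationSubring c := by
        apply Subtype.ext
        rfl
      rw [e, map_sub, ← hc]
      exact sub_self _
    rw [IsLocalRing.residue_eq_zero_iff, ← adicValuation_lt_one_iff_mem_maximalIdeal] at hres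
    have hg0 : g = 0 := by
      by_contra hne
      have hpos : 0 < v₀.ord g := by
        have h1 : v₀.adicValuation g < 1 := hres
        rw [v₀.adicValuation_eq_exp_neg_ord hne, ← WithZero.exp_zero, exp_lt_exp] at h1
        omega
      have hle : (Finsupp.single v₀ 1 : Divisor K F) ≤ divOf (K := K) g := by
        classical
        intro v
        rw [divOf_apply hne, Finsupp.single_apply]
        have h2 : 0 ≤ v.ord g := by
          rcases mem_riemannRochSpace_iff.mp hgmem v with h | h
          · exact absurd h hne
          · simpa using h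
        split_ifs with hv
        · subst hv; omega
        · exact h2
      have := degree_le_of_le hle
      rw [degree_divOf, Divisor.degree_single] at this
      have h3 : 0 < v₀.deg := deg_pos v₀
      have h4 : (0 : ℤ) < (v₀.deg : ℤ) := by exact_mod_cast h3
      omega
    refine ⟨c, ?_⟩
    have : f = algebraMap K F c := by
      have := sub_eq_zero.mp (hg ▸ hg0)
      exact this
    rw [this]
    rfl
  · rintro _ ⟨c, rfl⟩ v
    simpa using v.adicValuation_algebraMap_le_one c

theorem ell_zero [Nonempty (Place K F)] : ell (0 : Divisor K F) = 1 := by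
  unfold ell
  rw [riemannRochSpace_zero, LinearMap.finrank_range_of_inj]
  · exact Module.finrank_self K
  · exact (algebraMap K F).injective

/-- **Riemann–Roch (Riemann's part)** for a function field over an algebraically closed field of
characteristic zero: `l(D) - i(D) = deg D + 1 - g`, all spaces being finite-dimensional. -/
theorem riemann_roch_of_transcendental (x : F) (hx : Transcendental K x)
    [FiniteDimensional K⟮x⟯ F] [Algebra.IsSeparable K⟮x⟯ F] (D : Divisor K F) :
    Module.Finite K (H1 D) ∧ Module.Finite K ↥(riemannRochSpace D) ∧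
    (Module.finrank K ↥(riemannRochSpace D) : ℤ) - (Module.finrank K (H1 D) : ℤ)
      = Divisor.degree D + 1 - (genusFF K F : ℤ) := by
  obtain ⟨hne, hbd⟩ := riemannBound_of_transcendental (K := K) x hx
  obtain ⟨h1, h2⟩ := riemann_roch hbd D
  refine ⟨h1, inferInstance, ?_⟩
  rw [h2]
  have := ell_zero (K := K) (F := F)
  unfold ell at this
  rw [this]
  rfl

/-- Riemann's theorem for large degree: `H¹(D) = 0` and `l(D) = deg D + 1 - g`. -/
theorem exists_degree_bound_of_transcendental (x : F) (hx : Transcendental K x)
    [FiniteDimensional K⟮x⟯ F] [Algebra.IsSeparable K⟮x⟯ F] :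
    ∃ c : ℤ, ∀ D : Divisor K F, c ≤ Divisor.degree D →
      Subsingleton (H1 D) ∧
      (Module.finrank K ↥(riemannRochSpace D) : ℤ) = Divisor.degree D + 1 - (genusFF K F : ℤ) := by
  obtain ⟨hne, hbd⟩ := riemannBound_of_transcendental (K := K) x hx
  obtain ⟨γ, c, h1, h2⟩ := exists_chi_eq_of_degree_ge hbd
  refine ⟨c, fun D hD => ?_⟩
  obtain ⟨-, hfin, hrank⟩ := h1 D
  obtain ⟨-, -, hrank0⟩ := h1 0
  have hchi := h2 D hD
  have hg : (genusFF K F : ℤ) = γ + 1 := by
    have e : (genusFF K F : ℤ) = (Module.finrank K (H1 (0 : Divisor K F)) : ℤ) := rfl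
    rw [e, hrank0]
    unfold chi
    rw [ell_zero, map_zero]
    ring
  constructor
  · rw [hchi, sub_self] at hrank
    have h0 : Module.finrank K (H1 D) = 0 := by exact_mod_cast hrank
    exact Module.finrank_zero_iff.mp h0
  · unfold chi ell at hchi
    omega

end

end Fermat.Agent.RR7222
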