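import Mathlib
import Fermat.Prelude.Def_AlgebraicCurve_Repartitions

/-!
# Riemann–Roch for the Prelude's function fields: basic facts on places and repartitions

Everything is stated for the Prelude objects `AlgebraicCurve.Place`, `AlgebraicCurve.Divisor`,
`AlgebraicCurve.repartitions`, `AlgebraicCurve.repartitionsOf`, `AlgebraicCurve.riemannRochSpace`.
-/

set_option autoImplicit false

namespace Fermat.Agent.RR7222

open AlgebraicCurve WithZero

variable {K F : Type*} [Field K] [Field F] [Algebra K F]

section place

variable (v : Place K F)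

theorem mem_of_adicValuation_le_one {f : F} (h : v.adicValuation f ≤ 1) :
    f ∈ v.toValuationSubring := by
  rcases eq_or_ne f 0 with rfl | hf
  · exact zero_mem _
  have h0 : 0 ≤ v.ord f := by
    rcases (v.adicValuation_le_one_iff).mp h with h | h
    · exact absurd h hf
    · exact h
  obtain ⟨π, hπ⟩ := IsDiscreteValuationRing.exists_irreducible v.toValuationSubring
  obtain ⟨u, hu⟩ := v.exists_unit_mul_zpow hf hπ
  rw [hu]
  obtain ⟨n, hn⟩ := Int.eq_ofNat_of_zero_le h0
  rw [hn, zpow_natCast]
  exact mul_mem (u : v.toValuationSubring).2 (pow_mem π.2 n)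

theorem mem_iff_adicValuation_le_one {f : F} :
    f ∈ v.toValuationSubring ↔ v.adicValuation f ≤ 1 :=
  ⟨v.adicValuation_le_one_of_mem, mem_of_adicValuation_le_one v⟩

/-- The valuation of a uniformizer. -/
theorem adicValuation_irreducible_zpow {π : v.toValuationSubring} (hπ : Irreducible π) (n : ℤ) :
    v.adicValuation ((π : F) ^ n) = exp (-n) := by
  rw [map_zpow₀, v.adicValuation_coe_irreducible hπ, ← WithZero.exp_zsmul]
  simp

theorem adicValuation_lt_one_iff_mem_maximalIdeal (a : v.toValuationSubring) :
    v.adicValuation (a : F) < 1 ↔ a ∈ IsLocalRing.maximalIdeal v.toValuationSubring := by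
  rw [IsLocalRing.mem_maximalIdeal, mem_nonunits_iff, ← v.adicValuation_coe_eq_one_iff]
  have h1 := v.adicValuation_le_one_of_mem a.2
  exact ⟨fun h => h.ne, fun h => lt_of_le_of_ne h1 h⟩

theorem adicValuation_lt_exp_succ_iff {f : F} {n : ℤ} :
    v.adicValuation f < exp (n + 1) ↔ v.adicValuation f ≤ exp n := by
  rcases eq_or_ne f 0 with rfl | hf
  · simp
  · rw [v.adicValuation_eq_exp_neg_ord hf, exp_lt_exp, exp_le_exp]
    omega

end place

section poles

/-- Finiteness of the set of poles of a function. -/
theorem finite_poles [HasPrincipalDivisors K F] (f : F) :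
    {v : Place K F | ¬ v.adicValuation f ≤ 1}.Finite := by
  rcases eq_or_ne f 0 with rfl | hf
  · simp
  · obtain ⟨D, hD, -⟩ := HasPrincipalDivisors.exists_divisor (K := K) f hf
    refine D.support.finite_toSet.subset fun v hv => ?_
    simp only [Set.mem_ofPred_eq] at hv
    rw [v.not_adicValuation_le_one_iff] at hv
    rw [Finset.mem_coe, Finsupp.mem_support_iff, hD v]
    omega

/-- Finiteness of the set of zeros of a nonzero function. -/
theorem finite_zeros [HasPrincipalDivisors K F] {f : F} (hf : f ≠ 0) :
    {v : Place K F | 0 < v.ord f}.Finite := by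
  obtain ⟨D, hD, -⟩ := HasPrincipalDivisors.exists_divisor (K := K) f hf
  refine D.support.finite_toSet.subset fun v hv => ?_
  simp only [Set.mem_ofPred_eq] at hv
  rw [Finset.mem_coe, Finsupp.mem_support_iff, hD v]
  omega

/-- Under `HasPrincipalDivisors`, the repartitions are exactly the families with finitely
many poles. -/
theorem mem_repartitions_iff [HasPrincipalDivisors K F] {α : Place K F → F} :
    α ∈ repartitions K F ↔ {v : Place K F | ¬ v.adicValuation (α v) ≤ 1}.Finite := by
  constructor
  · intro h
    induction h using Algebra.adjoin_induction with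
    | mem x hx => exact hx
    | algebraMap r => exact finite_poles r
    | add x y _ _ hx hy =>
      refine (hx.union hy).subset fun v hv => ?_
      simp only [Set.mem_ofPred_eq, Set.mem_union] at hv ⊢
      by_contra hcon
      push Not at hcon
      exact hv ((Valuation.map_add _ _ _).trans (max_le hcon.1 hcon.2))
    | mul x y _ _ hx hy =>
      refine (hx.union hy).subset fun v hv => ?_
      simp only [Set.mem_ofPred_eq, Set.mem_union] at hv ⊢
      by_contra hcon
      push Not at hcon
      apply hv
      rw [Pi.mul_apply, map_mul]
      exact mul_le_one' hcon.1 hcon.2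
  · exact mem_repartitions_of_finite

/-- Every repartition lies in some `repartitionsOf D`. -/
theorem exists_mem_repartitionsOf [HasPrincipalDivisors K F] (α : ↥(repartitions K F)) :
    ∃ D : Divisor K F, α ∈ repartitionsOf D := by
  classical
  have hfin := mem_repartitions_iff.mp α.2
  let D : Divisor K F := Finsupp.onFinset hfin.toFinset
    (fun v => if v ∈ hfin.toFinset then WithZero.log (v.adicValuation ((α : Place K F → F) v))
      else 0)
    (fun v hv => by
      by_contra hcon
      exact hv (if_neg hcon))
  refine ⟨D, fun v => ?_⟩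
  show v.adicValuation ((α : Place K F → F) v) ≤ exp (D v)
  by_cases hv : v ∈ hfin.toFinset
  · have hD : D v = WithZero.log (v.adicValuation ((α : Place K F → F) v)) := by
      simp only [D, Finsupp.onFinset_apply, if_pos hv]
    rw [hD]
    have hne : v.adicValuation ((α : Place K F → F) v) ≠ 0 := by
      intro h0
      rw [Set.Finite.mem_toFinset, Set.mem_ofPred_eq, h0] at hv
      exact hv zero_le_one
    rw [WithZero.exp_log hne]
  · have hD : D v = 0 := by
      simp only [D, Finsupp.onFinset_apply, if_neg hv]
    rw [hD]
    rw [Set.Finite.mem_toFinset, Set.mem_ofPred_eq, not_not] at hv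
    simpa using hv

end poles

end Fermat.Agent.RR7222
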