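import Fermat.Agent.RR7222.Main

/-!
# Riemann's inequality from a non-constant function

* `riemannBound_of_nsmul`: if `deg (m B) - l(m B)` is bounded for the multiples of a divisor `B`
  of positive degree, then `deg D - l(D)` is bounded for all `D`.
* `chi_nsmul_poleDiv_le`: this holds for the pole divisor `B` of `x` as soon as there are `n ≥ deg B`
  elements `u₁, …, uₙ` with the `xⁱ uⱼ` linearly independent over `K`.
-/

set_option autoImplicit false

namespace Fermat.Agent.RR7222

open AlgebraicCurve WithZero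

universe u

variable {K : Type*} {F : Type u} [Field K] [Field F] [Algebra K F]

section poleDiv

variable [HasPrincipalDivisors K F]

/-- The pole divisor of a function. -/
noncomputable def poleDiv (f : F) : Divisor K F :=
  Finsupp.onFinset (finite_poles (K := K) f).toFinset (fun v => max 0 (-v.ord f)) (by
    intro v hv
    rw [Set.Finite.mem_toFinset, Set.mem_ofPred_eq, v.not_adicValuation_le_one_iff]
    by_contra hcon
    apply hv
    rw [max_eq_left]
    omega)

@[simp]
theorem poleDiv_apply (f : F) (v : Place K F) : poleDiv (K := K) f v = max 0 (-v.ord f) := rfl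

theorem poleDiv_nonneg (f : F) : (0 : Divisor K F) ≤ poleDiv f := by
  intro v
  simp

end poleDiv

section

variable [∀ v : Place K F, v.FiniteResidue] [Nonempty (Place K F)] [HasPrincipalDivisors K F]

/-- Riemann's inequality follows from its special case for the multiples of one divisor of
positive degree. -/
theorem riemannBound_of_nsmul (B : Divisor K F) (hdeg : 0 < Divisor.degree B) (c : ℤ)
    (hc : ∀ m : ℕ, chi (m • B) ≤ c) : RiemannBound K F := by
  refine ⟨c, fun A => ?_⟩
  show chi A ≤ c
  obtain ⟨A₁, hA, hA0⟩ := exists_ge_ge A 0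
  let m : ℕ := (Divisor.degree A₁ + c).toNat + 1
  have hle : m • B - A₁ ≤ m • B := by
    intro v
    have := hA0 v
    simp only [Finsupp.sub_apply, Finsupp.coe_zero, Pi.zero_apply] at this ⊢
    omega
  have h1 : chi (m • B - A₁) ≤ c := (chi_mono hle).trans (hc m)
  have hpos : 0 < ell (m • B - A₁) := by
    unfold chi at h1
    rw [map_sub, map_nsmul, nsmul_eq_mul] at h1
    have h2 : (m : ℤ) ≤ (m : ℤ) * Divisor.degree B := by nlinarith
    have h3 : Divisor.degree A₁ + c < (m : ℤ) := by
      simp only [m]
      omega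
    omega
  obtain ⟨z, hz, hzle⟩ := exists_le_add_divOf hpos
  calc chi A ≤ chi A₁ := chi_mono hA
    _ ≤ chi (m • B + divOf (K := K) z) := chi_mono hzle
    _ = chi (m • B) := chi_add_divOf _ hz
    _ ≤ c := hc m

/-- The bound for the multiples of the pole divisor of `x`. -/
theorem chi_nsmul_poleDiv_le (x : F) (n : ℕ) (u : Fin n → F)
    (hlin : LinearIndependent K (fun p : ℕ × Fin n => x ^ p.1 * u p.2))
    (hn : Divisor.degree (poleDiv (K := K) x) ≤ n) :
    ∃ c : ℤ, ∀ m : ℕ, chi (m • poleDiv (K := K) x) ≤ c := by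
  classical
  set B : Divisor K F := poleDiv x with hB
  let C : Divisor K F := ∑ j : Fin n, poleDiv (K := K) (u j)
  have hC0 : (0 : Divisor K F) ≤ C := Finset.sum_nonneg fun j _ => poleDiv_nonneg _
  have hCj : ∀ (j : Fin n) (v : Place K F), -v.ord (u j) ≤ C v := by
    intro j v
    have h1 : poleDiv (K := K) (u j) v ≤ C v := by
      have : poleDiv (K := K) (u j) ≤ C :=
        Finset.single_le_sum (f := fun j : Fin n => poleDiv (K := K) (u j))
          (fun j _ => poleDiv_nonneg _) (Finset.mem_univ j)
      exact this v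
    have h2 : -v.ord (u j) ≤ poleDiv (K := K) (u j) v := by simp
    exact h2.trans h1
  refine ⟨Divisor.degree C - n, fun m => ?_⟩
  -- the functions `x^i u_j`, `i ≤ m`, lie in `L(mB + C)`
  have hmem : ∀ (i : Fin (m + 1)) (j : Fin n),
      x ^ (i : ℕ) * u j ∈ riemannRochSpace (m • B + C) := by
    intro i j
    rw [mem_riemannRochSpace_iff]
    intro v
    have hne : x ^ (i : ℕ) * u j ≠ 0 := hlin.ne_zero ((i : ℕ), j)
    right
    have hxi : x ^ (i : ℕ) ≠ 0 := left_ne_zero_of_mul hne
    have huj : u j ≠ 0 := right_ne_zero_of_mul hne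
    rw [v.ord_mul hxi huj, ← zpow_natCast, v.ord_zpow]
    have h1 := hCj j v
    have h2 : (m • B + C) v = (m : ℤ) * B v + C v := by
      simp [Finsupp.add_apply, Finsupp.smul_apply]
    have h3 : -v.ord x ≤ B v := by simp [hB]
    have h4 : 0 ≤ B v := by simp [hB]
    have h5 : ((i : ℕ) : ℤ) ≤ (m : ℤ) := by
      have := i.2
      omega
    have h6 : (0 : ℤ) ≤ ((i : ℕ) : ℤ) := Int.natCast_nonneg _
    rw [h2]
    nlinarith
  let w : Fin (m + 1) × Fin n → ↥(riemannRochSpace (m • B + C)) :=
    fun p => ⟨x ^ (p.1 : ℕ) * u p.2, hmem p.1 p.2⟩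
  have hw : LinearIndependent K w := by
    apply LinearIndependent.of_comp (riemannRochSpace (m • B + C)).subtype
    have hinj : Function.Injective (fun p : Fin (m + 1) × Fin n => (((p.1 : ℕ), p.2) : ℕ × Fin n)) := by
      rintro ⟨i, j⟩ ⟨i', j'⟩ h
      simp only [Prod.mk.injEq] at h
      exact Prod.ext (Fin.ext h.1) h.2
    exact hlin.comp _ hinj
  have hcard := hw.fintype_card_le_finrank
  rw [Fintype.card_prod, Fintype.card_fin, Fintype.card_fin] at hcard
  have hle : m • B ≤ m • B + C := by
    intro v
    have := hC0 v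
    simp only [Finsupp.add_apply, Finsupp.coe_zero, Pi.zero_apply] at this ⊢
    omega
  have h1 := chi_mono hle
  have h2 : chi (m • B + C) ≤ Divisor.degree C - n := by
    unfold chi ell
    rw [map_add, map_nsmul, nsmul_eq_mul]
    have h3 : ((m + 1) * n : ℤ) ≤ (Module.finrank K ↥(riemannRochSpace (m • B + C)) : ℤ) := by
      exact_mod_cast hcard
    have h4 : (m : ℤ) * Divisor.degree B ≤ (m : ℤ) * n :=
      mul_le_mul_of_nonneg_left hn (Int.natCast_nonneg _)
    nlinarith
  exact h1.trans h2

end

end Fermat.Agent.RR7222
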