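import Mathlib

/-!
# Relative ranks of nested subspaces (pure linear algebra)

`relRank N P` is the rank of the image of `P` in `V ⧸ N`; for `N ≤ P` this is `dim P/N`.
All statements are in `Cardinal`, so no finiteness side conditions are needed.
-/

set_option autoImplicit false

namespace Fermat.Agent.RR7222

universe u

variable {K : Type*} [Field K] {V : Type u} [AddCommGroup V] [Module K V]

/-- The rank of the image of `P` in `V ⧸ N`. -/
noncomputable def relRank (N P : Submodule K V) : Cardinal.{u} :=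
  Module.rank K ↥(P.map N.mkQ)

theorem relRank_eq_rank_range {W : Type u} [AddCommGroup W] [Module K W]
    (N P : Submodule K V) (ψ : ↥P →ₗ[K] W)
    (hker : LinearMap.ker ψ = N.comap P.subtype) :
    relRank N P = Module.rank K ↥(LinearMap.range ψ) := by
  let φ : ↥P →ₗ[K] V ⧸ N := N.mkQ.comp P.subtype
  have hrange : LinearMap.range φ = P.map N.mkQ := by
    rw [LinearMap.range_comp, Submodule.range_subtype]
  have hkerφ : LinearMap.ker φ = N.comap P.subtype := by
    rw [LinearMap.ker_comp, Submodule.ker_mkQ]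
  have e1 : (↥P ⧸ LinearMap.ker φ) ≃ₗ[K] ↥(LinearMap.range φ) := φ.quotKerEquivRange
  have e2 : (↥P ⧸ LinearMap.ker ψ) ≃ₗ[K] ↥(LinearMap.range ψ) := ψ.quotKerEquivRange
  have e3 : (↥P ⧸ LinearMap.ker φ) ≃ₗ[K] (↥P ⧸ LinearMap.ker ψ) :=
    Submodule.quotEquivOfEq _ _ (hkerφ.trans hker.symm)
  unfold relRank
  rw [← hrange]
  exact (e1.symm.trans (e3.trans e2)).rank_eq

theorem relRank_eq_rank_of_surjective {W : Type u} [AddCommGroup W] [Module K W]
    (N P : Submodule K V) (ψ : ↥P →ₗ[K] W) (hsurj : Function.Surjective ψ)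
    (hker : LinearMap.ker ψ = N.comap P.subtype) :
    relRank N P = Module.rank K W := by
  rw [relRank_eq_rank_range N P ψ hker, LinearMap.range_eq_top.mpr hsurj, rank_top]

theorem relRank_add_rank {N P : Submodule K V} (h : N ≤ P) :
    relRank N P + Module.rank K ↥N = Module.rank K ↥P := by
  let φ : ↥P →ₗ[K] V ⧸ N := N.mkQ.comp P.subtype
  have hrange : LinearMap.range φ = P.map N.mkQ := by
    rw [LinearMap.range_comp, Submodule.range_subtype]
  have hkerφ : LinearMap.ker φ = N.comap P.subtype := by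
    rw [LinearMap.ker_comp, Submodule.ker_mkQ]
  have e : ↥(LinearMap.ker φ) ≃ₗ[K] ↥N := by
    rw [hkerφ]
    exact Submodule.comapSubtypeEquivOfLe h
  have := LinearMap.rank_range_add_rank_ker φ
  rw [e.rank_eq] at this
  unfold relRank
  rw [← hrange]
  exact this

theorem relRank_sup_right (N Q : Submodule K V) :
    relRank N (N ⊔ Q) = relRank (N ⊓ Q) Q := by
  let ψ : ↥Q →ₗ[K] V ⧸ N := N.mkQ.comp Q.subtype
  have hrange : LinearMap.range ψ = Q.map N.mkQ := by
    rw [LinearMap.range_comp, Submodule.range_subtype]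
  have hker : LinearMap.ker ψ = (N ⊓ Q).comap Q.subtype := by
    rw [LinearMap.ker_comp, Submodule.ker_mkQ]
    ext x
    simp
  rw [relRank_eq_rank_range (N ⊓ Q) Q ψ hker, hrange]
  unfold relRank
  rw [Submodule.map_sup, Submodule.mkQ_map_self, bot_sup_eq]

theorem relRank_tower {N M P : Submodule K V} (h₁ : N ≤ M) (h₂ : M ≤ P) :
    relRank N P = relRank N M + relRank M P := by
  let g : V ⧸ N →ₗ[K] V ⧸ M := N.liftQ M.mkQ (by rw [Submodule.ker_mkQ]; exact h₁)
  have hg : g.comp N.mkQ = M.mkQ := Submodule.liftQ_mkQ _ _ _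
  let S : Submodule K (V ⧸ N) := P.map N.mkQ
  let g' : ↥S →ₗ[K] V ⧸ M := g.comp S.subtype
  have hrange : LinearMap.range g' = P.map M.mkQ := by
    rw [LinearMap.range_comp, Submodule.range_subtype]
    show (P.map N.mkQ).map g = P.map M.mkQ
    rw [← Submodule.map_comp, hg]
  have hkerg : LinearMap.ker g = M.map N.mkQ := by
    rw [Submodule.ker_liftQ, Submodule.ker_mkQ]
  have hker : LinearMap.ker g' = (M.map N.mkQ).comap S.subtype := by
    rw [LinearMap.ker_comp, hkerg]
  have hle : M.map N.mkQ ≤ S := Submodule.map_mono h₂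
  have e : ↥(LinearMap.ker g') ≃ₗ[K] ↥(M.map N.mkQ) := by
    rw [hker]
    exact Submodule.comapSubtypeEquivOfLe hle
  have := LinearMap.rank_range_add_rank_ker g'
  rw [e.rank_eq, hrange] at this
  unfold relRank
  rw [add_comm]
  exact this.symm

theorem relRank_top (N : Submodule K V) : relRank N ⊤ = Module.rank K (V ⧸ N) := by
  unfold relRank
  rw [Submodule.map_top, Submodule.range_mkQ, rank_top]

theorem rank_quotient_eq_relRank_add {N P : Submodule K V} (h : N ≤ P) :
    Module.rank K (V ⧸ N) = relRank N P + Module.rank K (V ⧸ P) := by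
  rw [← relRank_top N, ← relRank_top P]
  exact relRank_tower h le_top

theorem relRank_self (N : Submodule K V) : relRank N N = 0 := by
  unfold relRank
  rw [Submodule.mkQ_map_self]
  exact rank_bot K (V ⧸ N)

/-- The exact sequence `0 → (A'∩Φ)/(A∩Φ) → A'/A → (A'+Φ)/(A+Φ) → 0` in rank form. -/
theorem relRank_inf_add_relRank_sup {A A' : Submodule K V} (Φ : Submodule K V) (h : A ≤ A') :
    relRank A A' = relRank (A ⊓ Φ) (A' ⊓ Φ) + relRank (A ⊔ Φ) (A' ⊔ Φ) := by
  have h1 : A ≤ A ⊔ (A' ⊓ Φ) := le_sup_left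
  have h2 : A ⊔ (A' ⊓ Φ) ≤ A' := sup_le h inf_le_left
  rw [relRank_tower h1 h2]
  congr 1
  · rw [relRank_sup_right]
    congr 1
    rw [← inf_assoc, inf_eq_left.mpr h]
  · have e1 : A' ⊔ Φ = (A ⊔ Φ) ⊔ A' := by
      rw [sup_comm (A ⊔ Φ) A', ← sup_assoc, sup_eq_left.mpr h]
    have e2 : (A ⊔ Φ) ⊓ A' = A ⊔ (A' ⊓ Φ) := by
      rw [inf_comm A' Φ]
      exact sup_inf_assoc_of_le Φ h
    rw [e1, relRank_sup_right, e2]

end Fermat.Agent.RR7222
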