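import Fermat.Agent.RR7222.Basic
import Fermat.Agent.RR7222.RelRank

/-!
# Local computation: `dim A(D + v) / A(D) = deg v`, and `dim A(D') / A(D) = deg D' - deg D`
-/

set_option autoImplicit false

namespace Fermat.Agent.RR7222

open AlgebraicCurve WithZero

universe u

variable {K : Type*} {F : Type u} [Field K] [Field F] [Algebra K F]

section single

variable (D : Divisor K F) (v : Place K F)

theorem repartitionsOf_le_add_single :
    repartitionsOf D ≤ repartitionsOf (D + Finsupp.single v 1) := by
  apply repartitionsOf_mono
  intro w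
  simp only [Finsupp.add_apply]
  have : (0 : ℤ) ≤ (Finsupp.single v (1 : ℤ)) w := by
    classical
    rw [Finsupp.single_apply]
    split_ifs <;> simp
  omega

theorem mul_zpow_mem_of_mem_repartitionsOf {π : v.toValuationSubring} (hπ : Irreducible π)
    (α : ↥(repartitionsOf (D + Finsupp.single v 1))) :
    ((α : ↥(repartitions K F)) : Place K F → F) v * (π : F) ^ (D v + 1) ∈ v.toValuationSubring := by
  apply mem_of_adicValuation_le_one
  have h := α.2 v
  have h' : v.adicValuation (((α : ↥(repartitions K F)) : Place K F → F) v) ≤ exp (D v + 1) := by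
    have e : (D + Finsupp.single v 1 : Divisor K F) v = D v + 1 := by simp
    rw [← e]
    exact h
  rw [map_mul, adicValuation_irreducible_zpow v hπ]
  calc v.adicValuation (((α : ↥(repartitions K F)) : Place K F → F) v) * exp (-(D v + 1))
      ≤ exp (D v + 1) * exp (-(D v + 1)) := mul_le_mul_left h' _
    _ = 1 := by rw [← WithZero.exp_add]; simp

/-- The "leading coefficient" map `A(D + v) → κ(v)`. -/
noncomputable def leadMap {π : v.toValuationSubring} (hπ : Irreducible π) :
    ↥(repartitionsOf (D + Finsupp.single v 1)) →ₗ[K] v.ResidueField where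
  toFun α := IsLocalRing.residue v.toValuationSubring
    ⟨_, mul_zpow_mem_of_mem_repartitionsOf D v hπ α⟩
  map_add' α β := by
    rw [← map_add]
    congr 1
    apply Subtype.ext
    show ((((α + β : ↥(repartitionsOf (D + Finsupp.single v 1))) : ↥(repartitions K F)) :
      Place K F → F) v) * (π : F) ^ (D v + 1) = _
    simp only [Submodule.coe_add, Subalgebra.coe_add, Pi.add_apply, add_mul]
    rfl
  map_smul' c α := by
    simp only [RingHom.id_apply]
    have hc : algebraMap K v.ResidueField c
        = IsLocalRing.residue v.toValuationSubring (algebraMap K v.toValuationSubring c) := rfl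
    rw [Algebra.smul_def, hc, ← map_mul]
    congr 1
    apply Subtype.ext
    have hv : ((((c • α : ↥(repartitionsOf (D + Finsupp.single v 1))) : ↥(repartitions K F)) :
        Place K F → F) v) = algebraMap K F c * (((α : ↥(repartitions K F)) : Place K F → F) v) := by
      rw [← Algebra.smul_def]
      rfl
    show ((((c • α : ↥(repartitionsOf (D + Finsupp.single v 1))) : ↥(repartitions K F)) :
      Place K F → F) v) * (π : F) ^ (D v + 1)
        = algebraMap K F c * ((((α : ↥(repartitions K F)) : Place K F → F) v) * (π : F) ^ (D v + 1))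
    rw [hv, mul_assoc]

theorem leadMap_apply {π : v.toValuationSubring} (hπ : Irreducible π)
    (α : ↥(repartitionsOf (D + Finsupp.single v 1))) :
    leadMap D v hπ α = IsLocalRing.residue v.toValuationSubring
      ⟨_, mul_zpow_mem_of_mem_repartitionsOf D v hπ α⟩ := rfl

theorem ker_leadMap {π : v.toValuationSubring} (hπ : Irreducible π) :
    LinearMap.ker (leadMap D v hπ) =
      (repartitionsOf D).comap (repartitionsOf (D + Finsupp.single v 1)).subtype := by
  classical
  ext α
  rw [LinearMap.mem_ker, leadMap_apply, IsLocalRing.residue_eq_zero_iff,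
    ← adicValuation_lt_one_iff_mem_maximalIdeal, Submodule.mem_comap]
  show v.adicValuation ((((α : ↥(repartitions K F)) : Place K F → F) v) * (π : F) ^ (D v + 1)) < 1
    ↔ ∀ w : Place K F, w.adicValuation (((α : ↥(repartitions K F)) : Place K F → F) w) ≤ exp (D w)
  have hπ0 : v.adicValuation ((π : F) ^ (D v + 1)) = exp (-(D v + 1)) :=
    adicValuation_irreducible_zpow v hπ _
  have key : v.adicValuation ((((α : ↥(repartitions K F)) : Place K F → F) v) *
      (π : F) ^ (D v + 1)) < 1 ↔
      v.adicValuation (((α : ↥(repartitions K F)) : Place K F → F) v) ≤ exp (D v) := by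
    rw [← adicValuation_lt_exp_succ_iff, map_mul, hπ0]
    have hpos : (0 : ℤᵐ⁰) < exp (D v + 1) := WithZero.exp_pos
    constructor
    · intro h
      have := mul_lt_mul_of_pos_right h hpos
      rwa [mul_assoc, ← WithZero.exp_add, one_mul, neg_add_cancel, WithZero.exp_zero,
        mul_one] at this
    · intro h
      have hpos' : (0 : ℤᵐ⁰) < exp (-(D v + 1)) := WithZero.exp_pos
      have := mul_lt_mul_of_pos_right h hpos'
      rwa [← WithZero.exp_add, add_neg_cancel, WithZero.exp_zero] at this
  rw [key]
  constructor
  · intro h w
    by_cases hw : w = v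
    · subst hw; exact h
    · have := α.2 w
      have e : (D + Finsupp.single v 1 : Divisor K F) w = D w := by
        simp [Ne.symm hw]
      rw [← e]
      exact this
  · intro h
    exact h v

theorem leadMap_surjective {π : v.toValuationSubring} (hπ : Irreducible π) :
    Function.Surjective (leadMap D v hπ) := by
  classical
  intro r
  obtain ⟨a, rfl⟩ := IsLocalRing.residue_surjective r
  have hπF : (π : F) ≠ 0 := by
    simpa [ne_eq, ZeroMemClass.coe_eq_zero] using hπ.ne_zero
  let α₀ : Place K F → F := Pi.single v ((a : F) * (π : F) ^ (-(D v + 1)))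
  have hα₀ : α₀ ∈ repartitions K F := by
    apply mem_repartitions_of_finite
    refine (Set.finite_singleton v).subset fun w hw => ?_
    by_contra hne
    apply hw
    have : α₀ w = 0 := Pi.single_eq_of_ne hne _
    rw [this]
    simp
  have hα₁ : (⟨α₀, hα₀⟩ : ↥(repartitions K F)) ∈ repartitionsOf (D + Finsupp.single v 1) := by
    intro w
    show w.adicValuation (α₀ w) ≤ exp ((D + Finsupp.single v 1 : Divisor K F) w)
    by_cases hw : w = v
    · subst hw
      have e : (D + Finsupp.single w 1 : Divisor K F) w = D w + 1 := by simp
      have e2 : α₀ w = (a : F) * (π : F) ^ (-(D w + 1)) := Pi.single_eq_same _ _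
      rw [e, e2, map_mul, adicValuation_irreducible_zpow w hπ, neg_neg]
      exact mul_le_of_le_one_left' (w.adicValuation_le_one_of_mem a.2)
    · have : α₀ w = 0 := Pi.single_eq_of_ne hw _
      rw [this]
      simp
  refine ⟨⟨⟨α₀, hα₀⟩, hα₁⟩, ?_⟩
  rw [leadMap_apply]
  congr 1
  apply Subtype.ext
  show α₀ v * (π : F) ^ (D v + 1) = (a : F)
  have e2 : α₀ v = (a : F) * (π : F) ^ (-(D v + 1)) := Pi.single_eq_same _ _
  rw [e2, mul_assoc, ← zpow_add₀ hπF, neg_add_cancel, zpow_zero, mul_one]

/-- `dim_K A(D + v)/A(D) = dim_K κ(v)`. -/
theorem relRank_repartitionsOf_add_single :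
    relRank (repartitionsOf D) (repartitionsOf (D + Finsupp.single v 1))
      = Module.rank K v.ResidueField := by
  obtain ⟨π, hπ⟩ := IsDiscreteValuationRing.exists_irreducible v.toValuationSubring
  exact relRank_eq_rank_of_surjective _ _ (leadMap D v hπ) (leadMap_surjective D v hπ)
    (ker_leadMap D v hπ)

theorem relRank_repartitionsOf_add_single_of_finite [v.FiniteResidue] :
    relRank (repartitionsOf D) (repartitionsOf (D + Finsupp.single v 1)) = (v.deg : Cardinal) := by
  have : Module.Finite K v.ResidueField := Place.FiniteResidue.finite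
  rw [relRank_repartitionsOf_add_single, Place.deg, Module.finrank_eq_rank]

end single

section general

/-- The embedding of effective divisors (as `ℕ`-valued finitely supported functions). -/
noncomputable def natDiv : (Place K F →₀ ℕ) →+ Divisor K F :=
  Finsupp.mapRange.addMonoidHom (Nat.castAddMonoidHom ℤ)

@[simp]
theorem natDiv_apply (E : Place K F →₀ ℕ) (v : Place K F) : natDiv E v = (E v : ℤ) := rfl

theorem natDiv_single (v : Place K F) (n : ℕ) :
    natDiv (Finsupp.single v n) = Finsupp.single v (n : ℤ) := by
  ext w
  classical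
  simp [Finsupp.single_apply]

theorem natDiv_nonneg (E : Place K F →₀ ℕ) : (0 : Divisor K F) ≤ natDiv E := by
  intro v
  simp

theorem degree_natDiv_nonneg (E : Place K F →₀ ℕ) : 0 ≤ Divisor.degree (natDiv E) := by
  induction E using Finsupp.induction_linear with
  | zero => simp
  | add f g hf hg => rw [map_add, map_add]; exact add_nonneg hf hg
  | single a b =>
    rw [natDiv_single, Divisor.degree_single]
    positivity

theorem exists_natDiv_of_le {D D' : Divisor K F} (h : D ≤ D') :
    ∃ E : Place K F →₀ ℕ, D' = D + natDiv E := by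
  refine ⟨(D' - D).mapRange Int.toNat Int.toNat_zero, ?_⟩
  ext v
  have := h v
  simp only [Finsupp.add_apply, natDiv_apply, Finsupp.mapRange_apply, Finsupp.sub_apply]
  omega

theorem repartitionsOf_le_add_natDiv (D : Divisor K F) (E : Place K F →₀ ℕ) :
    repartitionsOf D ≤ repartitionsOf (D + natDiv E) := by
  apply repartitionsOf_mono
  intro v
  simp

theorem degree_le_of_le {D D' : Divisor K F} (h : D ≤ D') :
    Divisor.degree D ≤ Divisor.degree D' := by
  obtain ⟨E, rfl⟩ := exists_natDiv_of_le h
  rw [map_add]
  have := degree_natDiv_nonneg E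
  omega

variable [∀ v : Place K F, v.FiniteResidue]

theorem relRank_repartitionsOf_add_natDiv (E : Place K F →₀ ℕ) :
    ∀ D : Divisor K F, relRank (repartitionsOf D) (repartitionsOf (D + natDiv E))
      = ((Divisor.degree (natDiv E)).toNat : Cardinal) := by
  induction E using Finsupp.induction_linear with
  | zero =>
    intro D
    simp [relRank_self]
  | add f g hf hg =>
    intro D
    rw [map_add, ← add_assoc,
      relRank_tower (repartitionsOf_le_add_natDiv D f) (repartitionsOf_le_add_natDiv _ g),
      hf D, hg (D + natDiv f), map_add, Int.toNat_add (degree_natDiv_nonneg f)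
        (degree_natDiv_nonneg g), Nat.cast_add]
  | single a b =>
    induction b with
    | zero =>
      intro D
      simp [relRank_self]
    | succ n ih =>
      intro D
      have e : natDiv (Finsupp.single a (n + 1)) =
          natDiv (Finsupp.single a n) + Finsupp.single a (1 : ℤ) := by
        rw [Finsupp.single_add, map_add, natDiv_single a 1]
        simp
      rw [e, ← add_assoc,
        relRank_tower (repartitionsOf_le_add_natDiv D _) (repartitionsOf_le_add_single _ a),
        ih D, relRank_repartitionsOf_add_single_of_finite, map_add, Divisor.degree_single,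
        natDiv_single, Divisor.degree_single]
      have h1 : ((n : ℤ) * (a.deg : ℤ)).toNat = n * a.deg := by
        rw [← Nat.cast_mul, Int.toNat_natCast]
      have h2 : ((n : ℤ) * (a.deg : ℤ) + 1 * (a.deg : ℤ)).toNat = n * a.deg + a.deg := by
        rw [one_mul, ← Nat.cast_mul, ← Nat.cast_add, Int.toNat_natCast]
      rw [h1, h2, Nat.cast_add]

/-- `dim_K A(D')/A(D) = deg D' - deg D` for `D ≤ D'`. -/
theorem relRank_repartitionsOf_of_le {D D' : Divisor K F} (h : D ≤ D') :
    relRank (repartitionsOf D) (repartitionsOf D')
      = ((Divisor.degree D' - Divisor.degree D).toNat : Cardinal) := by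
  obtain ⟨E, rfl⟩ := exists_natDiv_of_le h
  rw [relRank_repartitionsOf_add_natDiv, map_add, add_sub_cancel_left]

end general

end Fermat.Agent.RR7222
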