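import Fermat.Agent.RR7222.Riemann

/-!
# Riemann–Roch (Riemann's part) in `finrank` form, linear equivalence, vanishing of `H¹`
-/

set_option autoImplicit false

namespace Fermat.Agent.RR7222

open AlgebraicCurve WithZero

universe u

variable {K : Type*} {F : Type u} [Field K] [Field F] [Algebra K F]

section

variable [∀ v : Place K F, v.FiniteResidue] [Nonempty (Place K F)] [HasPrincipalDivisors K F]

/-- The boundedness hypothesis of Riemann's theorem: `deg D - l(D)` is bounded above. -/
def RiemannBound (K : Type*) (F : Type u) [Field K] [Field F] [Algebra K F] : Prop :=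
  ∃ γ : ℤ, ∀ D : Divisor K F,
    Divisor.degree D - (Module.finrank K ↥(riemannRochSpace D) : ℤ) ≤ γ

theorem finite_H1_and_finrank (hbd : RiemannBound K F) :
    ∃ γ : ℤ, (∃ D₁ : Divisor K F, chi D₁ = γ) ∧ ∀ D : Divisor K F, chi D ≤ γ ∧
      Module.Finite K (H1 D) ∧ (Module.finrank K (H1 D) : ℤ) = γ - chi D := by
  obtain ⟨γ, hD₁, hγ⟩ := exists_rank_H1 (K := K) (F := F) hbd
  refine ⟨γ, hD₁, fun D => ?_⟩
  obtain ⟨h1, h2⟩ := hγ D
  have hfin : Module.Finite K (H1 D) := by
    rw [← Module.rank_lt_aleph0_iff, h2]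
    exact Cardinal.natCast_lt_aleph0
  refine ⟨h1, hfin, ?_⟩
  have h3 : Module.finrank K (H1 D) = (γ - chi D).toNat := Module.finrank_eq_of_rank_eq h2
  rw [h3]
  omega

/-- **Riemann–Roch, Riemann's part.** If `deg D - l(D)` is bounded above then every `H¹(D)` is
finite-dimensional and `l(D) - i(D) = deg D + l(0) - g`. -/
theorem riemann_roch (hbd : RiemannBound K F) (D : Divisor K F) :
    Module.Finite K (H1 D) ∧
    (Module.finrank K ↥(riemannRochSpace D) : ℤ) - (Module.finrank K (H1 D) : ℤ)
      = Divisor.degree D + (Module.finrank K ↥(riemannRochSpace (0 : Divisor K F)) : ℤ)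
        - (genusFF K F : ℤ) := by
  obtain ⟨γ, -, hγ⟩ := finite_H1_and_finrank hbd
  obtain ⟨-, hfin, hD⟩ := hγ D
  obtain ⟨-, -, h0⟩ := hγ 0
  refine ⟨hfin, ?_⟩
  have hg : (genusFF K F : ℤ) = γ - chi (0 : Divisor K F) := h0
  rw [hg, hD]
  unfold chi ell
  rw [map_zero]
  ring

theorem finite_H1 (hbd : RiemannBound K F) (D : Divisor K F) : Module.Finite K (H1 D) :=
  (riemann_roch hbd D).1

end

/-! ### Principal divisors and linear equivalence -/

section principal

variable [HasPrincipalDivisors K F]

open scoped Classical in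
/-- The divisor of a function (`0` for the zero function). -/
noncomputable def divOf (f : F) : Divisor K F :=
  if hf : f = 0 then 0 else Classical.choose (HasPrincipalDivisors.exists_divisor (K := K) f hf)

theorem divOf_apply {f : F} (hf : f ≠ 0) (v : Place K F) : divOf (K := K) f v = v.ord f := by
  unfold divOf
  rw [dif_neg hf]
  exact (Classical.choose_spec (HasPrincipalDivisors.exists_divisor (K := K) f hf)).1 v

theorem divOf_apply' (f : F) (v : Place K F) : divOf (K := K) f v = v.ord f := by
  rcases eq_or_ne f 0 with rfl | hf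
  · simp [divOf]
  · exact divOf_apply hf v

theorem degree_divOf (f : F) : Divisor.degree (divOf (K := K) f) = 0 := by
  unfold divOf
  split_ifs with hf
  · simp
  · exact (Classical.choose_spec (HasPrincipalDivisors.exists_divisor (K := K) f hf)).2

/-- Multiplication by `z` maps `L(D + div z)` isomorphically onto `L(D)`. -/
noncomputable def mulEquiv (D : Divisor K F) {z : F} (hz : z ≠ 0) :
    ↥(riemannRochSpace (D + divOf (K := K) z)) ≃ₗ[K] ↥(riemannRochSpace D) where
  toFun f := ⟨(f : F) * z, by
    rw [mem_riemannRochSpace_iff]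
    intro v
    rcases eq_or_ne (f : F) 0 with h0 | h0
    · left; rw [h0, zero_mul]
    · right
      rcases mem_riemannRochSpace_iff.mp f.2 v with h | h
      · exact absurd h h0
      · rw [Finsupp.add_apply, divOf_apply hz] at h
        rw [v.ord_mul h0 hz]
        omega⟩
  invFun g := ⟨(g : F) * z⁻¹, by
    rw [mem_riemannRochSpace_iff]
    intro v
    rcases eq_or_ne (g : F) 0 with h0 | h0
    · left; rw [h0, zero_mul]
    · right
      rcases mem_riemannRochSpace_iff.mp g.2 v with h | h
      · exact absurd h h0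
      · rw [Finsupp.add_apply, divOf_apply hz, v.ord_mul h0 (inv_ne_zero hz), v.ord_inv]
        omega⟩
  left_inv f := by
    apply Subtype.ext
    show (f : F) * z * z⁻¹ = f
    rw [mul_assoc, mul_inv_cancel₀ hz, mul_one]
  right_inv g := by
    apply Subtype.ext
    show (g : F) * z⁻¹ * z = g
    rw [mul_assoc, inv_mul_cancel₀ hz, mul_one]
  map_add' f g := by
    apply Subtype.ext
    show ((f : F) + g) * z = f * z + g * z
    rw [add_mul]
  map_smul' c f := by
    apply Subtype.ext
    show (c • (f : F)) * z = c • ((f : F) * z)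
    rw [smul_mul_assoc]

theorem finrank_riemannRochSpace_add_divOf (D : Divisor K F) {z : F} (hz : z ≠ 0) :
    Module.finrank K ↥(riemannRochSpace (D + divOf (K := K) z))
      = Module.finrank K ↥(riemannRochSpace D) :=
  (mulEquiv D hz).finrank_eq

theorem chi_add_divOf (D : Divisor K F) {z : F} (hz : z ≠ 0) :
    chi (D + divOf (K := K) z) = chi D := by
  unfold chi ell
  rw [finrank_riemannRochSpace_add_divOf D hz, map_add, degree_divOf, add_zero]

end principal

section

variable [∀ v : Place K F, v.FiniteResidue] [Nonempty (Place K F)] [HasPrincipalDivisors K F]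

/-- If `l(D' - D) > 0` then `D` is linearly equivalent to a divisor `≤ D'`... in the form:
there is `z ≠ 0` with `D ≤ D' + div z`. -/
theorem exists_le_add_divOf {D D' : Divisor K F} (h : 0 < ell (D' - D)) :
    ∃ z : F, z ≠ 0 ∧ D ≤ D' + divOf (K := K) z := by
  have hnt : Nontrivial ↥(riemannRochSpace (D' - D)) := Module.finrank_pos_iff.mp h
  obtain ⟨z, hz⟩ := exists_ne (0 : ↥(riemannRochSpace (D' - D)))
  have hz0 : (z : F) ≠ 0 := fun h0 => hz (Subtype.ext h0)
  refine ⟨z, hz0, fun v => ?_⟩
  rcases mem_riemannRochSpace_iff.mp z.2 v with h | h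
  · exact absurd h hz0
  · rw [Finsupp.add_apply, divOf_apply hz0]
    rw [Finsupp.sub_apply] at h
    omega

/-- Riemann's theorem, sharp form: there are `γ` and `c` such that `deg D - l(D) ≤ γ` always,
with equality (and `H¹(D) = 0`) as soon as `deg D ≥ c`. -/
theorem exists_chi_eq_of_degree_ge (hbd : RiemannBound K F) :
    ∃ γ c : ℤ, (∀ D : Divisor K F, chi D ≤ γ ∧ Module.Finite K (H1 D) ∧
        (Module.finrank K (H1 D) : ℤ) = γ - chi D) ∧
      ∀ D : Divisor K F, c ≤ Divisor.degree D → chi D = γ := by
  obtain ⟨γ, ⟨D₁, hD₁⟩, hγ⟩ := finite_H1_and_finrank hbd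
  refine ⟨γ, Divisor.degree D₁ + γ + 1, hγ, fun D hD => ?_⟩
  have hpos : 0 < ell (D - D₁) := by
    have h1 := (hγ (D - D₁)).1
    unfold chi at h1
    rw [map_sub] at h1
    omega
  obtain ⟨z, hz, hzle⟩ := exists_le_add_divOf hpos
  rw [← chi_add_divOf D hz]
  exact le_antisymm (hγ _).1 (hD₁ ▸ chi_mono hzle)

end

end Fermat.Agent.RR7222
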