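import Fermat.Agent.RR7222.AlgClosed

/-!
# Non-special reduced divisors (algebraically closed constant field)

* `infinite_setOf_ord_nonneg`: infinitely many places are not poles of `x`.
* `exists_nonspecial`: inside any infinite set of places there are `g` distinct places
  `Q₁, …, Q_g` with `l(Q₁ + ⋯ + Q_g) = 1`.
-/

set_option autoImplicit false

namespace Fermat.Agent.RR7222

open AlgebraicCurve WithZero IntermediateField

universe u

variable {K : Type*} {F : Type u} [Field K] [Field F] [Algebra K F]

/-! ### Small place lemmas -/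

theorem ord_algebraMap_eq_zero (v : Place K F) (c : K) : v.ord (algebraMap K F c) = 0 := by
  rcases eq_or_ne c 0 with rfl | hc
  · simp
  have hc' : algebraMap K F c ≠ 0 := (map_ne_zero _).mpr hc
  have h1 : 0 ≤ v.ord (algebraMap K F c) := by
    rcases (v.adicValuation_le_one_iff).mp (v.adicValuation_algebraMap_le_one c) with h | h
    · exact absurd h hc'
    · exact h
  have h2 : 0 ≤ v.ord (algebraMap K F c⁻¹) := by
    rcases (v.adicValuation_le_one_iff).mp (v.adicValuation_algebraMap_le_one c⁻¹) with h | h
    · exact absurd h ((map_ne_zero _).mpr (inv_ne_zero hc))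
    · exact h
  rw [map_inv₀, v.ord_inv] at h2
  omega

theorem ord_pos_iff_adicValuation_lt_one (v : Place K F) {f : F} (hf : f ≠ 0) :
    0 < v.ord f ↔ v.adicValuation f < 1 := by
  rw [v.adicValuation_eq_exp_neg_ord hf, ← WithZero.exp_zero, exp_lt_exp]
  omega

theorem adjoin_sub_const_eq (x : F) (c : K) : K⟮x - algebraMap K F c⟯ = K⟮x⟯ := by
  apply le_antisymm
  · rw [adjoin_simple_le_iff]
    exact sub_mem (mem_adjoin_simple_self K x) (IntermediateField.algebraMap_mem _ c)
  · rw [adjoin_simple_le_iff]
    have := add_mem (mem_adjoin_simple_self K (x - algebraMap K F c))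
      (IntermediateField.algebraMap_mem K⟮x - algebraMap K F c⟯ c)
    rwa [sub_add_cancel] at this

theorem transcendental_sub_const {x : F} (hx : Transcendental K x) (c : K) :
    Transcendental K (x - algebraMap K F c) := by
  intro h
  apply hx
  have := h.add (isAlgebraic_algebraMap (R := K) (A := F) c)
  rwa [sub_add_cancel] at this

section

variable [IsAlgClosed K] [HasPrincipalDivisors K F] [∀ v : Place K F, v.FiniteResidue]

omit [HasPrincipalDivisors K F] [∀ v : Place K F, v.FiniteResidue] in
/-- Every value `c` of `x` is taken at some place. -/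
theorem exists_zero_sub_const (x : F) (hx : Transcendental K x) [FiniteDimensional K⟮x⟯ F]
    [Algebra.IsSeparable K⟮x⟯ F] (c : K) :
    ∃ v : Place K F, 0 < v.ord (x - algebraMap K F c) := by
  have hfd : FiniteDimensional K⟮x - algebraMap K F c⟯ F := by
    rw [adjoin_sub_const_eq]; infer_instance
  have hsep : Algebra.IsSeparable K⟮x - algebraMap K F c⟯ F := by
    rw [adjoin_sub_const_eq]; infer_instance
  obtain ⟨S, hS, hsum⟩ := exists_finset_zeros_sum_ord_of_isSeparable (K := K)
    (x - algebraMap K F c) (transcendental_sub_const hx c)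
  have hpos : 0 < Module.finrank K⟮x - algebraMap K F c⟯ F := Module.finrank_pos
  have hne : S.Nonempty := by
    by_contra hempty
    rw [Finset.not_nonempty_iff_eq_empty] at hempty
    rw [hempty, Finset.sum_empty] at hsum
    omega
  obtain ⟨v, hv⟩ := hne
  exact ⟨v, (hS v).mp hv⟩

omit [HasPrincipalDivisors K F] [∀ v : Place K F, v.FiniteResidue] in
/-- Infinitely many places are not poles of `x`. -/
theorem infinite_setOf_ord_nonneg (x : F) (hx : Transcendental K x) [FiniteDimensional K⟮x⟯ F]
    [Algebra.IsSeparable K⟮x⟯ F] : {v : Place K F | 0 ≤ v.ord x}.Infinite := by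
  have hKinf : Infinite K := IsAlgClosed.instInfinite
  choose φ hφ using exists_zero_sub_const (K := K) x hx
  have hinj : Function.Injective φ := by
    intro a b hab
    by_contra hne
    have ha := hφ a
    have hb := hφ b
    rw [← hab] at hb
    have hxa : x - algebraMap K F a ≠ 0 := fun h => by rw [h] at ha; simp at ha
    have hxb : x - algebraMap K F b ≠ 0 := fun h => by rw [h] at hb; simp at hb
    have e : algebraMap K F (b - a) = (x - algebraMap K F a) - (x - algebraMap K F b) := by
      rw [map_sub]; ring
    have h0 : (φ a).ord (algebraMap K F (b - a)) = 0 := ord_algebraMap_eq_zero _ _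
    have hba : algebraMap K F (b - a) ≠ 0 := (map_ne_zero _).mpr (sub_ne_zero.mpr (Ne.symm hne))
    have h1 : (φ a).adicValuation (algebraMap K F (b - a)) < 1 := by
      rw [e]
      refine lt_of_le_of_lt (Valuation.map_sub _ _ _) (max_lt ?_ ?_)
      · exact (ord_pos_iff_adicValuation_lt_one _ hxa).mp ha
      · exact (ord_pos_iff_adicValuation_lt_one _ hxb).mp hb
    rw [← ord_pos_iff_adicValuation_lt_one _ hba] at h1
    omega
  have hsub : Set.range φ ⊆ {v : Place K F | 0 ≤ v.ord x} := by
    rintro _ ⟨a, rfl⟩
    have ha := hφ a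
    have hxa : x - algebraMap K F a ≠ 0 := fun h => by rw [h] at ha; simp at ha
    have hmem1 : x - algebraMap K F a ∈ (φ a).toValuationSubring :=
      mem_of_adicValuation_le_one _ ((ord_pos_iff_adicValuation_lt_one _ hxa).mp ha).le
    have hmem : x ∈ (φ a).toValuationSubring := by
      have := add_mem hmem1 ((φ a).algebraMap_mem' a)
      rwa [sub_add_cancel] at this
    rcases ((φ a).adicValuation_le_one_iff).mp ((φ a).adicValuation_le_one_of_mem hmem) with h | h
    · rw [Set.mem_ofPred_eq, h]; simp
    · exact h
  exact (Set.infinite_range_of_injective hinj).mono hsub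

/-- The reduced divisor `∑_{v ∈ T} v`. -/
noncomputable def redDiv (T : Finset (Place K F)) : Divisor K F := ∑ v ∈ T, Finsupp.single v 1

omit [IsAlgClosed K] [HasPrincipalDivisors K F] [∀ v : Place K F, v.FiniteResidue] in
theorem redDiv_apply [DecidableEq (Place K F)] (T : Finset (Place K F)) (v : Place K F) :
    redDiv T v = if v ∈ T then 1 else 0 := by
  unfold redDiv
  rw [Finsupp.finsetSum_apply]
  simp only [Finsupp.single_apply]
  rw [Finset.sum_ite_eq' T v (fun _ => (1 : ℤ))]

omit [IsAlgClosed K] [HasPrincipalDivisors K F] [∀ v : Place K F, v.FiniteResidue] in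
theorem redDiv_nonneg (T : Finset (Place K F)) : (0 : Divisor K F) ≤ redDiv T := by
  classical
  intro v
  rw [redDiv_apply]
  split_ifs <;> simp

omit [HasPrincipalDivisors K F] in
theorem degree_redDiv (T : Finset (Place K F)) : Divisor.degree (redDiv T) = T.card := by
  have hdeg : ∀ v : Place K F, v.deg = 1 := fun v =>
    have : Module.Finite K v.ResidueField := Place.FiniteResidue.finite
    v.deg_eq_one_of_isAlgClosed_of_finite
  unfold redDiv
  rw [map_sum]
  simp [Divisor.degree_single, hdeg]

omit [IsAlgClosed K] [HasPrincipalDivisors K F] [∀ v : Place K F, v.FiniteResidue] in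
theorem redDiv_erase_le [DecidableEq (Place K F)] (T : Finset (Place K F)) (v : Place K F) :
    redDiv (T.erase v) ≤ redDiv T := by
  intro w
  rw [redDiv_apply, redDiv_apply]
  by_cases hw : w ∈ T.erase v
  · rw [if_pos hw, if_pos (Finset.mem_of_mem_erase hw)]
  · rw [if_neg hw]
    split_ifs <;> simp

variable [Nonempty (Place K F)]

/-- If `l(∑_{v ∈ T} v) ≥ 2`, some point of `T` can be removed with `l` dropping by exactly one. -/
theorem exists_erase_ell [DecidableEq (Place K F)] (T : Finset (Place K F))
    (h : 2 ≤ ell (redDiv T)) :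
    ∃ v ∈ T, ell (redDiv (T.erase v)) + 1 = ell (redDiv T) := by
  -- a non-constant element of `L(redDiv T)`
  have hex : ∃ f ∈ riemannRochSpace (redDiv T), f ∉ riemannRochSpace (0 : Divisor K F) := by
    by_contra hcon
    push Not at hcon
    have hle : riemannRochSpace (redDiv T) ≤ riemannRochSpace (0 : Divisor K F) := hcon
    have := Submodule.finrank_mono hle
    have h1 : ell (0 : Divisor K F) = 1 := ell_zero
    unfold ell at h h1
    omega
  obtain ⟨f, hfT, hf0⟩ := hex
  have hfne : f ≠ 0 := fun h0 => hf0 (h0 ▸ Submodule.zero_mem _)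
  -- `f` has a pole
  obtain ⟨v, hv⟩ : ∃ v : Place K F, v.ord f < 0 := by
    by_contra hcon
    push Not at hcon
    apply hf0
    rw [mem_riemannRochSpace_iff]
    intro v
    right
    simpa using hcon v
  have hvT : v ∈ T := by
    rcases mem_riemannRochSpace_iff.mp hfT v with h0 | h1
    · exact absurd h0 hfne
    · rw [redDiv_apply] at h1
      by_contra hnot
      rw [if_neg hnot] at h1
      omega
  refine ⟨v, hvT, ?_⟩
  have hle := redDiv_erase_le T v
  have hnot : f ∉ riemannRochSpace (redDiv (T.erase v)) := by
    intro hmem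
    rcases mem_riemannRochSpace_iff.mp hmem v with h0 | h1
    · exact absurd h0 hfne
    · rw [redDiv_apply, if_neg (Finset.notMem_erase v T)] at h1
      omega
  have hlt : riemannRochSpace (redDiv (T.erase v)) < riemannRochSpace (redDiv T) :=
    lt_of_le_of_ne (riemannRochSpace_mono hle) fun heq => hnot (heq ▸ hfT)
  have h1 : ell (redDiv (T.erase v)) < ell (redDiv T) := Submodule.finrank_lt_finrank_of_lt hlt
  have h2 := rank_riemannRochSpace_le (K := K) hle
  rw [degree_redDiv, degree_redDiv, Finset.card_erase_of_mem hvT,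
    ← Module.finrank_eq_rank, ← Module.finrank_eq_rank] at h2
  have h3 : ((T.card : ℤ) - ((T.card - 1 : ℕ) : ℤ)).toNat ≤ 1 := by omega
  have h4 : ell (redDiv T) ≤ 1 + ell (redDiv (T.erase v)) := by
    have : (Module.finrank K ↥(riemannRochSpace (redDiv T)) : Cardinal) ≤
        ((1 + Module.finrank K ↥(riemannRochSpace (redDiv (T.erase v))) : ℕ) : Cardinal) := by
      refine h2.trans ?_
      rw [Nat.cast_add]
      exact add_le_add_left (by exact_mod_cast h3) _
    exact_mod_cast this
  omega

/-- **Non-special reduced divisors.** Inside any infinite set of places there are `g` distinct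
places with `l(Q₁ + ⋯ + Q_g) = 1`. -/
theorem exists_nonspecial (x : F) (hx : Transcendental K x) [FiniteDimensional K⟮x⟯ F]
    [Algebra.IsSeparable K⟮x⟯ F] (S : Set (Place K F)) (hS : S.Infinite) :
    ∃ T : Finset (Place K F), (↑T : Set (Place K F)) ⊆ S ∧ T.card = genusFF K F ∧
      ell (redDiv T) = 1 := by
  classical
  obtain ⟨c, hc⟩ := exists_degree_bound_of_transcendental (K := K) x hx
  -- descending induction
  have key : ∀ n : ℕ, ∀ T : Finset (Place K F), T.card = n →
      (ell (redDiv T) : ℤ) = T.card + 1 - (genusFF K F : ℤ) →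
      ∃ T' : Finset (Place K F), T' ⊆ T ∧ T'.card = genusFF K F ∧ ell (redDiv T') = 1 := by
    intro n
    induction n with
    | zero =>
      intro T hcard hell
      have hT : T = ∅ := Finset.card_eq_zero.mp hcard
      subst hT
      have h1 : ell (redDiv (∅ : Finset (Place K F))) = 1 := by
        have : redDiv (∅ : Finset (Place K F)) = 0 := by simp [redDiv]
        rw [this]; exact ell_zero
      refine ⟨∅, subset_rfl, ?_, h1⟩
      rw [h1] at hell
      simp only [Finset.card_empty, Nat.cast_zero] at hell ⊢
      omega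
    | succ n ih =>
      intro T hcard hell
      have hpos : 1 ≤ ell (redDiv T) := by
        have h0 : ell (0 : Divisor K F) = 1 := ell_zero
        have := ell_le_of_le (redDiv_nonneg T)
        omega
      rcases Nat.lt_or_ge (ell (redDiv T)) 2 with h2 | h2
      · have h1 : ell (redDiv T) = 1 := by omega
        refine ⟨T, subset_rfl, ?_, h1⟩
        rw [h1] at hell
        omega
      · obtain ⟨v, hvT, hv⟩ := exists_erase_ell T h2
        have hcard' : (T.erase v).card = n := by
          rw [Finset.card_erase_of_mem hvT, hcard]; rfl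
        obtain ⟨T', hT', h1, h2'⟩ := ih (T.erase v) hcard' (by
          rw [hcard']
          rw [hcard] at hell
          push_cast at hell ⊢
          omega)
        exact ⟨T', hT'.trans (Finset.erase_subset v T), h1, h2'⟩
  obtain ⟨T, hTS, hTcard⟩ := hS.exists_subset_card_eq c.toNat
  obtain ⟨-, hell⟩ := hc (redDiv T) (by rw [degree_redDiv, hTcard]; omega)
  rw [degree_redDiv] at hell
  obtain ⟨T', hT', h1, h2⟩ := key T.card T rfl hell
  exact ⟨T', (Finset.coe_subset.mpr hT').trans hTS, h1, h2⟩

/-- Variant with `g' ≤ g` points and the conclusion `L(Q₁ + ⋯ + Q_g') = K`. -/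
theorem exists_nonspecial_le (x : F) (hx : Transcendental K x) [FiniteDimensional K⟮x⟯ F]
    [Algebra.IsSeparable K⟮x⟯ F] (S : Set (Place K F)) (hS : S.Infinite) (g' : ℕ)
    (hg : g' ≤ genusFF K F) :
    ∃ T : Finset (Place K F), (↑T : Set (Place K F)) ⊆ S ∧ T.card = g' ∧
      riemannRochSpace (redDiv T) = LinearMap.range (Algebra.linearMap K F) := by
  classical
  obtain ⟨T, hTS, hcard, hell⟩ := exists_nonspecial (K := K) x hx S hS
  obtain ⟨T', hT', hcard'⟩ := Finset.exists_subset_card_eq (s := T) (n := g') (by rw [hcard]; exact hg)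
  refine ⟨T', (Finset.coe_subset.mpr hT').trans hTS, hcard', ?_⟩
  have hle : redDiv T' ≤ redDiv T := by
    intro w
    rw [redDiv_apply, redDiv_apply]
    by_cases hw : w ∈ T'
    · rw [if_pos hw, if_pos (hT' hw)]
    · rw [if_neg hw]
      split_ifs <;> simp
  have h0 : riemannRochSpace (0 : Divisor K F) ≤ riemannRochSpace (redDiv T') :=
    riemannRochSpace_mono (redDiv_nonneg T')
  have h1 : riemannRochSpace (redDiv T') ≤ riemannRochSpace (redDiv T) := riemannRochSpace_mono hle
  have h2 : riemannRochSpace (0 : Divisor K F) = riemannRochSpace (redDiv T) := by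
    apply Submodule.eq_of_le_of_finrank_eq (h0.trans h1)
    have e0 : ell (0 : Divisor K F) = 1 := ell_zero
    unfold ell at e0 hell
    rw [e0, hell]
  rw [← riemannRochSpace_zero]
  exact le_antisymm (h2 ▸ h1) h0

end

end Fermat.Agent.RR7222
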