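import Fermat.Agent.RR7222.Local

/-!
# Riemann's theorem for the Prelude's function fields

`l(D) - i(D) = deg D + l(0) - g`, under the hypothesis that `deg D - l(D)` is bounded above.
-/

set_option autoImplicit false

namespace Fermat.Agent.RR7222

open AlgebraicCurve WithZero

universe u

variable {K : Type*} {F : Type u} [Field K] [Field F] [Algebra K F]

/-- The diagonal embedding of `F` into the repartitions, as a `K`-linear map. -/
noncomputable def diag : F →ₗ[K] ↥(repartitions K F) :=
  (Algebra.linearMap F ↥(repartitions K F)).restrictScalars K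

theorem diag_apply (f : F) (v : Place K F) :
    ((diag (K := K) f : ↥(repartitions K F)) : Place K F → F) v = f := rfl

theorem diag_injective [Nonempty (Place K F)] : Function.Injective (diag (K := K) (F := F)) := by
  intro f g h
  obtain ⟨v⟩ := ‹Nonempty (Place K F)›
  have := congrArg (fun x : ↥(repartitions K F) => (x : Place K F → F) v) h
  simpa [diag_apply] using this

theorem range_diag : LinearMap.range (diag (K := K) (F := F)) = principalRepartitions K F := by
  ext α
  rw [mem_principalRepartitions_iff, LinearMap.mem_range]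
  constructor
  · rintro ⟨f, rfl⟩
    exact ⟨f, rfl⟩
  · rintro ⟨f, hf⟩
    exact ⟨f, Subtype.ext hf.symm⟩

theorem inf_principal_eq (D : Divisor K F) :
    repartitionsOf D ⊓ principalRepartitions K F = (riemannRochSpace D).map diag := by
  ext α
  rw [Submodule.mem_inf, Submodule.mem_map, mem_principalRepartitions_iff]
  constructor
  · rintro ⟨h1, f, hf⟩
    refine ⟨f, fun v => ?_, Subtype.ext hf.symm⟩
    have := h1 v
    rwa [hf] at this
  · rintro ⟨f, hf, rfl⟩
    exact ⟨fun v => hf v, f, rfl⟩

theorem rank_inf_principal [Nonempty (Place K F)] (D : Divisor K F) :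
    Module.rank K ↥(repartitionsOf D ⊓ principalRepartitions K F)
      = Module.rank K ↥(riemannRochSpace D) := by
  rw [inf_principal_eq]
  exact (Submodule.equivMapOfInjective diag diag_injective (riemannRochSpace D)).symm.rank_eq

/-- `L(D) = 0` when `deg D < 0`. -/
theorem riemannRochSpace_eq_bot_of_degree_neg [HasPrincipalDivisors K F] {D : Divisor K F}
    (h : Divisor.degree D < 0) : riemannRochSpace D = ⊥ := by
  rw [eq_bot_iff]
  intro f hf
  rw [Submodule.mem_bot]
  by_contra hf0
  obtain ⟨P, hP, hdeg⟩ := HasPrincipalDivisors.exists_divisor (K := K) f hf0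
  have hle : (0 : Divisor K F) ≤ P + D := by
    intro v
    rcases (mem_riemannRochSpace_iff.mp hf v) with h0 | h1
    · exact absurd h0 hf0
    · simp only [Finsupp.coe_zero, Pi.zero_apply, Finsupp.add_apply, hP v]
      omega
  have := degree_le_of_le hle
  rw [map_zero, map_add, hdeg, zero_add] at this
  omega

theorem riemannRochSpace_mono {D D' : Divisor K F} (h : D ≤ D') :
    riemannRochSpace D ≤ riemannRochSpace D' := fun _ hf v =>
  (hf v).trans (exp_le_exp.mpr (Finsupp.le_def.mp h v))

theorem exists_ge_ge (D₁ D₂ : Divisor K F) : ∃ D : Divisor K F, D₁ ≤ D ∧ D₂ ≤ D := by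
  refine ⟨D₁ + natDiv ((D₂ - D₁).mapRange Int.toNat Int.toNat_zero), ?_, ?_⟩
  · intro v
    simp
  · intro v
    simp only [Finsupp.add_apply, natDiv_apply, Finsupp.mapRange_apply, Finsupp.sub_apply]
    omega

section finiteResidue

variable [∀ v : Place K F, v.FiniteResidue]

theorem deg_pos (v : Place K F) : 0 < v.deg := by
  have : Module.Finite K v.ResidueField := Place.FiniteResidue.finite
  exact Module.finrank_pos

variable [Nonempty (Place K F)]

theorem rank_riemannRochSpace_le {D D' : Divisor K F} (h : D ≤ D') :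
    Module.rank K ↥(riemannRochSpace D') ≤
      ((Divisor.degree D' - Divisor.degree D).toNat : Cardinal)
        + Module.rank K ↥(riemannRochSpace D) := by
  have h1 := relRank_inf_add_relRank_sup (principalRepartitions K F) (repartitionsOf_mono h)
  have h2 := relRank_add_rank (inf_le_inf_right (principalRepartitions K F) (repartitionsOf_mono h))
  rw [rank_inf_principal, rank_inf_principal] at h2
  rw [← h2, ← relRank_repartitionsOf_of_le h, h1]
  exact add_le_add_left (self_le_add_right _ _) _

variable [HasPrincipalDivisors K F]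

/-- The Riemann–Roch spaces are finite-dimensional. -/
instance finite_riemannRochSpace (D : Divisor K F) : Module.Finite K ↥(riemannRochSpace D) := by
  obtain ⟨v₀⟩ := ‹Nonempty (Place K F)›
  let n : ℕ := (Divisor.degree D).toNat + 1
  let D₀ : Divisor K F := D - natDiv (Finsupp.single v₀ n)
  have hle : D₀ ≤ D := by
    intro v
    simp only [D₀, Finsupp.sub_apply, natDiv_apply]
    omega
  have hdeg : Divisor.degree D₀ < 0 := by
    simp only [D₀, map_sub, natDiv_single, Divisor.degree_single]
    have h1 : (1 : ℤ) ≤ (v₀.deg : ℤ) := by exact_mod_cast deg_pos v₀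
    have h2 : (n : ℤ) ≤ (n : ℤ) * (v₀.deg : ℤ) := by nlinarith
    have h3 : Divisor.degree D < (n : ℤ) := by
      simp only [n]
      omega
    omega
  have hrank := rank_riemannRochSpace_le hle
  rw [riemannRochSpace_eq_bot_of_degree_neg hdeg] at hrank
  rw [← Module.rank_lt_aleph0_iff]
  refine lt_of_le_of_lt hrank ?_
  rw [rank_bot, add_zero]
  exact Cardinal.natCast_lt_aleph0

/-- `l(D)`. -/
noncomputable def ell (D : Divisor K F) : ℕ := Module.finrank K ↥(riemannRochSpace D)

/-- `deg D - l(D)`. -/
noncomputable def chi (D : Divisor K F) : ℤ := Divisor.degree D - (ell D : ℤ)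

theorem ell_le_of_le {D D' : Divisor K F} (h : D ≤ D') : ell D ≤ ell D' :=
  Submodule.finrank_mono (riemannRochSpace_mono h)

/-- `dim (A(D') + F)/(A(D) + F) = (deg D' - l(D')) - (deg D - l(D))`. -/
theorem relRank_sup_principal {D D' : Divisor K F} (h : D ≤ D') :
    chi D ≤ chi D' ∧
    relRank (repartitionsOf D ⊔ principalRepartitions K F)
      (repartitionsOf D' ⊔ principalRepartitions K F) = ((chi D' - chi D).toNat : Cardinal) := by
  have h1 := relRank_inf_add_relRank_sup (principalRepartitions K F) (repartitionsOf_mono h)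
  have h2 := relRank_add_rank (inf_le_inf_right (principalRepartitions K F) (repartitionsOf_mono h))
  rw [rank_inf_principal, rank_inf_principal, ← Module.finrank_eq_rank, ← Module.finrank_eq_rank]
    at h2
  rw [relRank_repartitionsOf_of_le h] at h1
  have hdd := degree_le_of_le h
  set x := relRank (repartitionsOf D ⊓ principalRepartitions K F)
    (repartitionsOf D' ⊓ principalRepartitions K F) with hx
  set r := relRank (repartitionsOf D ⊔ principalRepartitions K F)
    (repartitionsOf D' ⊔ principalRepartitions K F) with hr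
  have hxfin : x < Cardinal.aleph0 := by
    refine lt_of_le_of_lt ?_ (Cardinal.natCast_lt_aleph0 (n := Module.finrank K ↥(riemannRochSpace D')))
    rw [← h2]
    exact self_le_add_right _ _
  have hrfin : r < Cardinal.aleph0 := by
    refine lt_of_le_of_lt ?_
      (Cardinal.natCast_lt_aleph0 (n := (Divisor.degree D' - Divisor.degree D).toNat))
    rw [h1]
    exact self_le_add_left _ _
  obtain ⟨a, ha⟩ := Cardinal.lt_aleph0.mp hxfin
  obtain ⟨b, hb⟩ := Cardinal.lt_aleph0.mp hrfin
  rw [ha] at h2
  rw [ha, hb] at h1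
  have h2' : a + Module.finrank K ↥(riemannRochSpace D) = Module.finrank K ↥(riemannRochSpace D') := by
    exact_mod_cast h2
  have h1' : (Divisor.degree D' - Divisor.degree D).toNat = a + b := by
    exact_mod_cast h1
  have hchi : chi D' - chi D = (b : ℤ) := by
    unfold chi ell
    omega
  refine ⟨by omega, ?_⟩
  rw [hb, hchi, Int.toNat_natCast]

theorem chi_mono {D D' : Divisor K F} (h : D ≤ D') : chi D ≤ chi D' :=
  (relRank_sup_principal h).1

theorem sup_principal_le_of_chi_eq {D D' : Divisor K F} (h : D ≤ D') (hchi : chi D = chi D') :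
    repartitionsOf D' ⊔ principalRepartitions K F ≤ repartitionsOf D ⊔ principalRepartitions K F := by
  have h0 := (relRank_sup_principal h).2
  rw [hchi, sub_self, Int.toNat_zero, Nat.cast_zero] at h0
  unfold relRank at h0
  rw [rank_eq_zero_iff] at h0
  intro x hx
  have hx' : Submodule.mkQ _ x ∈ (repartitionsOf D' ⊔ principalRepartitions K F).map
      (repartitionsOf D ⊔ principalRepartitions K F).mkQ := Submodule.mem_map_of_mem hx
  obtain ⟨a, ha, hax⟩ := h0 ⟨_, hx'⟩
  have : (⟨_, hx'⟩ : ↥((repartitionsOf D' ⊔ principalRepartitions K F).map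
      (repartitionsOf D ⊔ principalRepartitions K F).mkQ)) = 0 := by
    rcases smul_eq_zero.mp hax with h | h
    · exact absurd h ha
    · exact h
  have h3 := congrArg Subtype.val this
  simpa using h3

/-- Riemann's theorem, in cardinal form: if `deg D - l(D)` is bounded above, then there is `γ`
with `dim H¹(D) = γ - (deg D - l(D))` for all `D`. -/
theorem exists_rank_H1 (hbd : ∃ γ : ℤ, ∀ D : Divisor K F, chi D ≤ γ) :
    ∃ γ : ℤ, (∃ D₁ : Divisor K F, chi D₁ = γ) ∧ ∀ D : Divisor K F, chi D ≤ γ ∧
      Module.rank K (H1 D) = ((γ - chi D).toNat : Cardinal) := by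
  obtain ⟨γ₀, hγ₀⟩ := hbd
  -- the maximal value of `chi`
  obtain ⟨γ, ⟨D₁, hD₁⟩, hmax⟩ : ∃ γ : ℤ, (∃ D : Divisor K F, chi D = γ) ∧
      ∀ z : ℤ, (∃ D : Divisor K F, chi D = z) → z ≤ γ :=
    Int.exists_greatest_of_bdd ⟨γ₀, fun z ⟨D, hD⟩ => hD ▸ hγ₀ D⟩ ⟨chi (0 : Divisor K F), 0, rfl⟩
  have hle : ∀ D : Divisor K F, chi D ≤ γ := fun D => hmax _ ⟨D, rfl⟩
  have htop : ∀ D : Divisor K F, D₁ ≤ D →
      repartitionsOf D ⊔ principalRepartitions K F = ⊤ := by
    intro D hD
    have hD' : chi D = γ := le_antisymm (hle D) (hD₁ ▸ chi_mono hD)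
    rw [eq_top_iff]
    intro α _
    obtain ⟨D₂, hD₂⟩ := exists_mem_repartitionsOf α
    obtain ⟨D₃, h13, h23⟩ := exists_ge_ge D D₂
    have h3 : chi D₃ = γ := le_antisymm (hle D₃) (hD' ▸ chi_mono h13)
    exact sup_principal_le_of_chi_eq h13 (hD'.trans h3.symm)
      (Submodule.mem_sup_left (repartitionsOf_mono h23 hD₂))
  refine ⟨γ, ⟨D₁, hD₁⟩, fun D => ⟨hle D, ?_⟩⟩
  obtain ⟨D', h1, h2⟩ := exists_ge_ge D D₁
  have hD' : chi D' = γ := le_antisymm (hle D') (hD₁ ▸ chi_mono h2)
  have hsup : repartitionsOf D ⊔ principalRepartitions K F ≤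
      repartitionsOf D' ⊔ principalRepartitions K F :=
    sup_le_sup_right (repartitionsOf_mono h1) _
  have key := rank_quotient_eq_relRank_add hsup
  rw [(relRank_sup_principal h1).2, hD'] at key
  have hzero : Module.rank K (↥(repartitions K F) ⧸
      (repartitionsOf D' ⊔ principalRepartitions K F)) = 0 := by
    rw [htop D' h2]
    exact rank_zero_iff.mpr (inferInstance : Subsingleton (↥(repartitions K F) ⧸ (⊤ : Submodule K _)))
  rw [hzero, add_zero] at key
  exact key

end finiteResidue

end Fermat.Agent.RR7222
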